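import Mathlib
import Fermat.Agent.BR2.LevelPlug
import Fermat.Agent.Hecke.HeckeDegrees

/-!
# Programme II, block K6, leaves (2a)/(2b): the conorm `α_r^*` on `p`-torsion

Dialect of `BR2/LevelGen.lean` (`pull φ : JZero N →+ JZero N'`, `push φ`, `push_pull`) and of
`BR2/LevelPlug.lean` (`pullN M₀ q ℓ' e : JZero (M₀ * q) →+ JZero (M₀ * ℓ' * q)`, the conorm
`α_{ℓ'}^*` followed by the level cast; in Programme II: `M₀ = M'`, `q = p`, `ℓ' = r`).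

* `eq_zero_of_pull_eq_zero`, `pull_injOn_torsion` : for any `φ : Fb N →ₐ[Kb] Fb N'` of degree prime
  to `p`, `φ^*` is injective on the `p`-torsion (`φ_* φ^* = deg φ`);
* `eq_zero_of_alphaUp_eq_zero` : `α_r^* : J₀(M) → J₀(M r)` (`r` prime, `r ∤ M`, `p ∤ r + 1`) is
  injective on `J₀(M)[p]`;
* **(2b)** `eq_zero_of_pullN_eq_zero`, `pullN_injOn_torsion`, `pullN_eq_zero_iff` : the same for
  `pullN`;
* **(2a)** `alphaDown_pullN`, `betaDown_pullN` (restatements of the landed `alpha_square`,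
  `beta_square`) and `alphaDown_pullN_eq_zero`, `betaDown_pullN_eq_zero` : `pullN` maps the
  `q`-new part to the `q`-new part; `nsmul_pullN_eq_zero` : it preserves `p`-torsion.
  (`G_ℚ`- and `T_ℓ`-equivariance are the landed `LevelPlug.pullN_smul`, `pullN_hecke`.)

Lead's redesign of K6 (finding #1856 (2a),(2b)): `V := α_r^* V₀`, `V₀ ⊆ J₀(p M')[p]`,
`r ≢ -1 (mod p)`.
-/

set_option autoImplicit false
set_option linter.unusedSectionVars false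

noncomputable section

namespace Fermat.Agent.FF4.K6

open AlgebraicCurve ModularCurve Fermat.Agent.X0 Fermat.Agent.Jac Fermat.Agent.BR2.LevelGen
  Fermat.Agent.BR.LevelTransfer Fermat.Agent.BR2.LevelMaps Fermat.Agent.BR2.LevelSquares
  Fermat.Agent.BR2.LevelPlug

section General

variable {N N' : ℕ} [NeZero N] [NeZero N']

/-- A class killed by `p` whose pullback along a map of degree prime to `p` vanishes is zero. -/
theorem eq_zero_of_pull_eq_zero (φ : Fb N →ₐ[Kb] Fb N') {p : ℕ}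
    (hcop : Nat.Coprime p (finrankAlong Kb φ)) {x : JZero N} (hpx : p • x = 0)
    (hx : pull φ x = 0) : x = 0 := by
  have hn : finrankAlong Kb φ • x = 0 := by
    rw [← push_pull φ x, hx, map_zero]
  have h1 : ((p : ℤ) * Nat.gcdA p (finrankAlong Kb φ) +
      (finrankAlong Kb φ : ℤ) * Nat.gcdB p (finrankAlong Kb φ)) • x = x := by
    rw [← Nat.gcd_eq_gcd_ab, hcop.gcd_eq_one, Nat.cast_one, one_zsmul]
  rw [← h1, add_zsmul, mul_comm (p : ℤ), mul_comm (finrankAlong Kb φ : ℤ), mul_zsmul, mul_zsmul,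
    natCast_zsmul, natCast_zsmul, hpx, hn, smul_zero, smul_zero, add_zero]

/-- `φ^*` is injective on the `p`-torsion if `p ∤ deg φ`. -/
theorem pull_injOn_torsion (φ : Fb N →ₐ[Kb] Fb N') {p : ℕ}
    (hcop : Nat.Coprime p (finrankAlong Kb φ)) {x y : JZero N} (hpx : p • x = 0) (hpy : p • y = 0)
    (h : pull φ x = pull φ y) : x = y := by
  rw [← sub_eq_zero]
  refine eq_zero_of_pull_eq_zero φ hcop ?_ ?_
  · rw [nsmul_sub, hpx, hpy, sub_zero]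
  · rw [map_sub, h, sub_self]

end General

section Alpha

variable (M r : ℕ) [NeZero M] [NeZero r]

/-- `α_r^* : J₀(M) → J₀(M r)` is injective on `J₀(M)[p]` for `r ∤ M` prime, `p ∤ r + 1`. -/
theorem eq_zero_of_alphaUp_eq_zero (hr : r.Prime) (hrM : ¬ r ∣ M) {p : ℕ}
    (hp : p.Prime) (hpr : ¬ p ∣ r + 1) {x : JZero M} (hpx : p • x = 0)
    (hx : alphaUp M r x = 0) : x = 0 := by
  refine eq_zero_of_pull_eq_zero (heckeAlphaBar Kb M r) ?_ hpx hx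
  rw [Fermat.Agent.Hecke.Deg.finrankAlong_heckeAlphaBar M r hr hrM]
  exact (Nat.Prime.coprime_iff_not_dvd hp).mpr hpr

end Alpha

section PullN

variable (M₀ q ℓ' : ℕ) [NeZero M₀] [NeZero q] [NeZero ℓ'] (e : M₀ * q * ℓ' = M₀ * ℓ' * q)

/-- **(2b)** `pullN = α_{ℓ'}^*` is injective on the `p`-torsion of `J₀(M₀ q)` for `ℓ' ∤ M₀ q` prime,
`p ∤ ℓ' + 1`. -/
theorem eq_zero_of_pullN_eq_zero (hℓ' : ℓ'.Prime) (hℓ'M : ¬ ℓ' ∣ M₀ * q) {p : ℕ} (hp : p.Prime)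
    (hpr : ¬ p ∣ ℓ' + 1) {x : JZero (M₀ * q)} (hpx : p • x = 0)
    (hx : pullN M₀ q ℓ' e x = 0) : x = 0 := by
  refine eq_zero_of_alphaUp_eq_zero (M₀ * q) ℓ' hℓ' hℓ'M hp hpr hpx ?_
  rw [pullN_apply] at hx
  exact (AddEquiv.map_eq_zero_iff (castJ e)).mp hx

theorem pullN_eq_zero_iff (hℓ' : ℓ'.Prime) (hℓ'M : ¬ ℓ' ∣ M₀ * q) {p : ℕ} (hp : p.Prime)
    (hpr : ¬ p ∣ ℓ' + 1) {x : JZero (M₀ * q)} (hpx : p • x = 0) :
    pullN M₀ q ℓ' e x = 0 ↔ x = 0 :=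
  ⟨eq_zero_of_pullN_eq_zero M₀ q ℓ' e hℓ' hℓ'M hp hpr hpx, fun h => by rw [h, map_zero]⟩

/-- **(2b)**, injectivity form. -/
theorem pullN_injOn_torsion (hℓ' : ℓ'.Prime) (hℓ'M : ¬ ℓ' ∣ M₀ * q) {p : ℕ} (hp : p.Prime)
    (hpr : ¬ p ∣ ℓ' + 1) {x y : JZero (M₀ * q)} (hpx : p • x = 0) (hpy : p • y = 0)
    (h : pullN M₀ q ℓ' e x = pullN M₀ q ℓ' e y) : x = y := by
  rw [← sub_eq_zero]
  refine eq_zero_of_pullN_eq_zero M₀ q ℓ' e hℓ' hℓ'M hp hpr ?_ ?_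
  · rw [nsmul_sub, hpx, hpy, sub_zero]
  · rw [map_sub, h, sub_self]

/-- `pullN` preserves `p`-torsion. -/
theorem nsmul_pullN_eq_zero {p : ℕ} {x : JZero (M₀ * q)} (hpx : p • x = 0) :
    p • pullN M₀ q ℓ' e x = 0 := by
  rw [← map_nsmul, hpx, map_zero]

/-- **(2a)** `α_{q*} ∘ pullN = α_{ℓ'}^* ∘ α_{q*}` (the landed `alpha_square`). -/
theorem alphaDown_pullN (hq : q.Prime) (hqM : ¬ q ∣ M₀ * ℓ') (x : JZero (M₀ * q)) :
    alphaDown (M₀ * ℓ') q (pullN M₀ q ℓ' e x) = alphaUp M₀ ℓ' (alphaDown M₀ q x) :=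
  alpha_square M₀ q ℓ' hq hqM e x

/-- **(2a)** `β_{q*} ∘ pullN = α_{ℓ'}^* ∘ β_{q*}` (the landed `beta_square`). -/
theorem betaDown_pullN (hq : q.Prime) (hqM : ¬ q ∣ M₀ * ℓ') (x : JZero (M₀ * q)) :
    betaDown (M₀ * ℓ') q (pullN M₀ q ℓ' e x) = alphaUp M₀ ℓ' (betaDown M₀ q x) :=
  beta_square M₀ q ℓ' hq hqM e x

/-- `pullN` maps `ker α_{q*}` into `ker α_{q*}`. -/
theorem alphaDown_pullN_eq_zero (hq : q.Prime) (hqM : ¬ q ∣ M₀ * ℓ') {x : JZero (M₀ * q)}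
    (hx : alphaDown M₀ q x = 0) : alphaDown (M₀ * ℓ') q (pullN M₀ q ℓ' e x) = 0 := by
  rw [alphaDown_pullN M₀ q ℓ' e hq hqM, hx, map_zero]

/-- `pullN` maps `ker β_{q*}` into `ker β_{q*}`. -/
theorem betaDown_pullN_eq_zero (hq : q.Prime) (hqM : ¬ q ∣ M₀ * ℓ') {x : JZero (M₀ * q)}
    (hx : betaDown M₀ q x = 0) : betaDown (M₀ * ℓ') q (pullN M₀ q ℓ' e x) = 0 := by
  rw [betaDown_pullN M₀ q ℓ' e hq hqM, hx, map_zero]

end PullN

end Fermat.Agent.FF4.K6
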