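import Mathlib
import Fermat.Prelude.Def_AlgebraicCurve_Correspondence

/-!
# Programme II, block K6, leaf (3): descent of `p ∣ ord` along a finite map of degree prime to `p`

Abstract function-field algebra in the Prelude language (any characteristic).

`F ⊆ F'` function fields over `K` with the fundamental identity `∑_{w | v} e_w deg w = n deg v`,
`n = [F' : F]`, `p` a prime with `p ∤ n`.

* `dvd_ord_of_dvd_ord_algebraMap` : if `p ∣ ord_w f` for every place `w` of `F'` (`f ∈ F`) then
  `p ∣ ord_v f` for every place `v` of `F` with `p ∤ deg v`;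
* `exists_divisor_pullback_eq` : if `p • D' = div_{F'} f` then there is a divisor `D₀` of `F` with
  `p • D₀ = div_F f` and `pullback D₀ = D'`;
* `…_along` : the same along a homomorphism `φ : F →ₐ[K] F'` (Prelude `pullbackAlong`).

Use: `F = F̃_{M'}`, `F' = F̃_{M' r}` (degree `r + 1 ≢ 0 (p)`), `f = f̃` the residue of the Kummer
function of an `r`-old class (lead's redesign of K6, finding #1856 (3)).
-/

set_option autoImplicit false
set_option linter.style.haveILetI false

namespace Fermat.Agent.FF4.K6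

open AlgebraicCurve

section Abs

variable {K F F' : Type*} [Field K] [Field F] [Field F']
  [Algebra K F] [Algebra K F'] [Algebra F F'] [IsScalarTower K F F']
  [Algebra.IsIntegral F F'] [HasPrincipalDivisors K F']

/-- **Descent of divisibility of orders.** If `p ∤ [F' : F]` and `p ∣ ord_w f` for every place `w` of
`F'`, then `p ∣ ord_v f` for every place `v` of `F` of degree prime to `p`. -/
theorem dvd_ord_of_dvd_ord_algebraMap [FundamentalIdentity K F F'] {p : ℕ} (hp : p.Prime)
    (hpn : ¬ p ∣ Module.finrank F F') {f : F}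
    (h : ∀ w : Place K F', (p : ℤ) ∣ w.ord (algebraMap F F' f))
    (v : Place K F) (hv : ¬ p ∣ v.deg) : (p : ℤ) ∣ v.ord f := by
  by_contra hnd
  have hpZ : Prime (p : ℤ) := Nat.prime_iff_prime_int.mp hp
  -- `p` divides every ramification index over `v`
  have he : ∀ w ∈ v.fiber F', (p : ℤ) ∣ (w.ramificationIndex F : ℤ) := by
    intro w hw
    have h1 := h w
    rw [w.ord_restrict f, Place.mem_fiber.mp hw] at h1
    rcases hpZ.dvd_or_dvd h1 with h2 | h2
    · exact h2
    · exact absurd h2 hnd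
  have hsum : (p : ℤ) ∣ ∑ w ∈ v.fiber F', (w.ramificationIndex F : ℤ) * (w.deg : ℤ) :=
    Finset.dvd_sum fun w hw => Dvd.dvd.mul_right (he w hw) _
  rw [FundamentalIdentity.sum_ramificationIndex_mul_deg (K := K) (F := F) (F' := F') v] at hsum
  rcases hpZ.dvd_or_dvd hsum with h2 | h2
  · exact hpn (by exact_mod_cast h2)
  · exact hv (by exact_mod_cast h2)

/-- **Descent of the divisor `(1/p) div f`.** -/
theorem exists_divisor_pullback_eq [FundamentalIdentity K F F'] [HasPrincipalDivisors K F]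
    {p : ℕ} (hp : p.Prime) (hpn : ¬ p ∣ Module.finrank F F')
    (hdeg : ∀ v : Place K F, ¬ p ∣ v.deg) {f : F} (hf : f ≠ 0) {D' : Divisor K F'}
    (hD' : ∀ w : Place K F', (p : ℤ) * D' w = w.ord (algebraMap F F' f)) :
    ∃ D₀ : Divisor K F, (∀ v : Place K F, (p : ℤ) * D₀ v = v.ord f) ∧
      Divisor.pullback F' D₀ = D' := by
  have hp0 : (p : ℤ) ≠ 0 := by exact_mod_cast hp.ne_zero
  obtain ⟨D, hD, -⟩ := HasPrincipalDivisors.exists_divisor (K := K) f hf
  have hdvd : ∀ v : Place K F, (p : ℤ) ∣ v.ord f := fun v =>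
    dvd_ord_of_dvd_ord_algebraMap hp hpn (fun w => ⟨D' w, (hD' w).symm⟩) v (hdeg v)
  refine ⟨Finsupp.mapRange (fun n : ℤ => n / (p : ℤ)) (by simp) D, fun v => ?_, ?_⟩
  · rw [Finsupp.mapRange_apply, hD v]
    exact Int.mul_ediv_cancel' (hdvd v)
  · ext w
    apply mul_left_cancel₀ hp0
    rw [hD' w, Divisor.pullback_apply, Finsupp.mapRange_apply, hD, w.ord_restrict f]
    have := Int.mul_ediv_cancel' (hdvd (w.restrict F))
    calc (p : ℤ) * ((w.ramificationIndex F : ℤ) * ((w.restrict F).ord f / (p : ℤ)))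
        = (w.ramificationIndex F : ℤ) * ((p : ℤ) * ((w.restrict F).ord f / (p : ℤ))) := by ring
      _ = (w.ramificationIndex F : ℤ) * (w.restrict F).ord f := by rw [this]

end Abs

section Along

variable {K F F' : Type*} [Field K] [Field F] [Field F'] [Algebra K F] [Algebra K F']
  [HasPrincipalDivisors K F']

/-- `dvd_ord_of_dvd_ord_algebraMap` along a homomorphism `φ : F →ₐ[K] F'`. -/
theorem dvd_ord_of_dvd_ord_along (φ : F →ₐ[K] F') (hφ : φ.toRingHom.IsIntegral)
    (hFI : FundamentalIdentityAlong K φ hφ) {p : ℕ} (hp : p.Prime)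
    (hpn : ¬ p ∣ finrankAlong K φ) {f : F}
    (h : ∀ w : Place K F', (p : ℤ) ∣ w.ord (φ f))
    (v : Place K F) (hv : ¬ p ∣ v.deg) : (p : ℤ) ∣ v.ord f := by
  letI := algebraAlong φ
  haveI := isScalarTower_along φ
  haveI := isIntegral_along φ hφ
  haveI : FundamentalIdentity K F F' := hFI
  exact dvd_ord_of_dvd_ord_algebraMap hp hpn h v hv

/-- `exists_divisor_pullback_eq` along a homomorphism `φ : F →ₐ[K] F'`. -/
theorem exists_divisor_pullbackAlong_eq [HasPrincipalDivisors K F] (φ : F →ₐ[K] F')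
    (hφ : φ.toRingHom.IsIntegral) (hFI : FundamentalIdentityAlong K φ hφ) {p : ℕ} (hp : p.Prime)
    (hpn : ¬ p ∣ finrankAlong K φ) (hdeg : ∀ v : Place K F, ¬ p ∣ v.deg) {f : F} (hf : f ≠ 0)
    {D' : Divisor K F'} (hD' : ∀ w : Place K F', (p : ℤ) * D' w = w.ord (φ f)) :
    ∃ D₀ : Divisor K F, (∀ v : Place K F, (p : ℤ) * D₀ v = v.ord f) ∧
      Divisor.pullbackAlong φ hφ D₀ = D' := by
  letI := algebraAlong φ
  haveI := isScalarTower_along φ
  haveI := isIntegral_along φ hφ
  haveI : FundamentalIdentity K F F' := hFI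
  exact exists_divisor_pullback_eq hp hpn hdeg hf hD'

end Along

end Fermat.Agent.FF4.K6
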