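import Mathlib
import Fermat.Agent.FF4.K6.OrdDescent
import Fermat.Agent.Val.FinrankModL
import Fermat.Agent.Hecke.HeckeInputs
import Fermat.Agent.Hecke.HeckeDegrees

/-!
# Programme II, block K6, leaf (3), modular instance in characteristic `p`

`k` the residue field of a valuation subring `A ⊆ ℚ̄` over `p`, `F̃_N = modularFunctionFieldFullC k N`.

* `isSeparable_along_of_isSeparable_adjoin` : if `F'` is separable over `K(φ x)` then it is
  separable over `φ F` (general);
* `inclC k h : F̃_N →ₐ[k] F̃_{N'}` the inclusion for `N ∣ N'` (for `N' = N * ℓ` this is definitionally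
  helper24's `Hecke2.alphaC k N ℓ`), `inclC_jFullC`;
* for `p ∤ N'`: `finiteAlong_inclC`, `isIntegral_inclC`, `isSeparable_along_inclC`,
  `fundamentalIdentityAlong_inclC`, `normFormulaAlong_inclC`, and the degree
  `dedekindPsi_mul_finrankAlong_inclC : ψ(N) · [F̃_{N'} : F̃_N] = ψ(N')`,
  `finrankAlong_inclC_mul_prime : [F̃_{N r} : F̃_N] = r + 1` (`r ∤ N` prime);
* **(3)** `dvd_ord_of_dvd_ord_inclC` : for `r ∤ N` prime, `p ∤ N r`, `p ∤ r + 1`: if
  `p ∣ ord_w f` for every place `w` of `F̃_{N r}` (`f ∈ F̃_N`) then `p ∣ ord_v f` for every place `v`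
  of `F̃_N`; `exists_divisor_pullbackAlong_inclC` : the divisor form
  (`p • D' = div f ⟹ D' = α̃_r^* D₀`, `p • D₀ = div f`).
-/

set_option autoImplicit false
set_option linter.style.haveILetI false
set_option linter.unusedSectionVars false
set_option synthInstance.maxHeartbeats 400000

noncomputable section

open IntermediateField AlgebraicCurve ModularCurve

namespace Fermat.Agent.FF4.K6

section General

variable {K F F' : Type*} [Field K] [Field F] [Field F'] [Algebra K F] [Algebra K F']

/-- If `F'` is separable over `K(φ x)` then it is separable over `φ F`. -/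
theorem isSeparable_along_of_isSeparable_adjoin (φ : F →ₐ[K] F') (x : F)
    [hsep : Algebra.IsSeparable K⟮φ x⟯ F'] :
    letI := algebraAlong φ; Algebra.IsSeparable F F' := by
  letI := algebraAlong φ
  have hle : K⟮φ x⟯ ≤ φ.fieldRange := by
    rw [adjoin_simple_le_iff]
    exact ⟨x, rfl⟩
  -- `φ.fieldRange` as an intermediate field over `K(φ x)`
  haveI : Algebra.IsSeparable (extendScalars hle) F' :=
    IntermediateField.isSeparable_tower_top (F := K⟮φ x⟯) (extendScalars hle)
  let e₀ : F ≃ₐ[K] φ.fieldRange := AlgEquiv.ofInjectiveField φ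
  let e₁ : ↥(extendScalars hle) ≃+* F :=
    { toFun := fun a => e₀.symm ⟨a.1, a.2⟩
      invFun := fun y => ⟨(e₀ y).1, (e₀ y).2⟩
      left_inv := fun a => by
        apply Subtype.ext
        show ((e₀ (e₀.symm ⟨a.1, a.2⟩) : φ.fieldRange) : F') = a.1
        rw [AlgEquiv.apply_symm_apply]
      right_inv := fun y => by
        show e₀.symm ⟨(e₀ y).1, (e₀ y).2⟩ = y
        exact e₀.symm_apply_apply y
      map_mul' := fun a b => by
        show e₀.symm ⟨(a * b).1, _⟩ = e₀.symm ⟨a.1, a.2⟩ * e₀.symm ⟨b.1, b.2⟩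
        rw [← map_mul]
        rfl
      map_add' := fun a b => by
        show e₀.symm ⟨(a + b).1, _⟩ = e₀.symm ⟨a.1, a.2⟩ + e₀.symm ⟨b.1, b.2⟩
        rw [← map_add]
        rfl }
  refine Algebra.IsSeparable.of_equiv_equiv e₁ (RingEquiv.refl F') ?_
  ext a
  show φ (e₀.symm ⟨a.1, a.2⟩) = a.1
  have : ((e₀ (e₀.symm ⟨a.1, a.2⟩) : φ.fieldRange) : F') = a.1 := by
    rw [AlgEquiv.apply_symm_apply]
  exact this

end General

/-! ### The inclusion `F̃_N ⊆ F̃_{N'}` -/

section Incl

open Fermat.Agent.Val Fermat.Agent.Hecke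

variable (k : Type*) [Field k] {N N' : ℕ} [NeZero N] [NeZero N'] (h : N ∣ N')

/-- The inclusion `F̃_N ⊆ F̃_{N'}` for `N ∣ N'`, over any field. -/
def inclC : modularFunctionFieldFullC k N →ₐ[k] modularFunctionFieldFullC k N' :=
  IntermediateField.inclusion (full_degeneracyC_le k h)

@[simp] theorem coe_inclC (x : modularFunctionFieldFullC k N) :
    ((inclC k h x : modularFunctionFieldFullC k N') : LaurentSeries k) = x :=
  IntermediateField.coe_inclusion _ x

theorem inclC_jFullC : inclC k h (jFullC k N) = jFullC k N' :=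
  Subtype.ext (by rw [coe_inclC]; rfl)

variable {p : ℕ} [IsAlgClosed k] [CharP k p]

theorem finiteAlong_inclC (hp : p.Prime) (hpN' : ¬ p ∣ N') : FiniteAlong k (inclC k h) :=
  haveI := finiteDimensional_modularFunctionFieldFullC N' k hp hpN'
  finiteAlong_of_transcendental _ (jFullC k N') (transcendental_jFullC k N)

theorem isIntegral_inclC (hp : p.Prime) (hpN' : ¬ p ∣ N') : (inclC k h).toRingHom.IsIntegral :=
  isIntegral_of_finiteAlong _ (finiteAlong_inclC k h hp hpN')

theorem isSeparable_along_inclC (hp : p.Prime) (hpN' : ¬ p ∣ N') :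
    letI := algebraAlong (inclC k h)
    Algebra.IsSeparable (modularFunctionFieldFullC k N) (modularFunctionFieldFullC k N') := by
  haveI : Algebra.IsSeparable k⟮inclC k h (jFullC k N)⟯ ↥(modularFunctionFieldFullC k N') := by
    rw [inclC_jFullC]
    exact isSeparable_modularFunctionFieldFullC N' k hp hpN'
  exact isSeparable_along_of_isSeparable_adjoin (inclC k h) (jFullC k N)

theorem hasPrincipalDivisors_fullC (hp : p.Prime) (hpN' : ¬ p ∣ N') :
    HasPrincipalDivisors k (modularFunctionFieldFullC k N') :=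
  (riemannPkg_modL N' k hp hpN').principal

theorem fundamentalIdentityAlong_inclC (hp : p.Prime) (hpN' : ¬ p ∣ N') :
    haveI := hasPrincipalDivisors_fullC k hp hpN'
    FundamentalIdentityAlong k (inclC k h) (isIntegral_inclC k h hp hpN') :=
  haveI := hasPrincipalDivisors_fullC k hp hpN'
  fundamentalIdentityAlong_of_finite _ (finiteAlong_inclC k h hp hpN')
    (isSeparable_along_inclC k h hp hpN') _

theorem normFormulaAlong_inclC (hp : p.Prime) (hpN' : ¬ p ∣ N') :
    NormFormulaAlong k (inclC k h) (finiteAlong_inclC k h hp hpN') :=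
  normFormulaAlong_of_finite _ (finiteAlong_inclC k h hp hpN')
    (isSeparable_along_inclC k h hp hpN')

end Incl

/-! ### Degrees, over the residue field of `A ∣ p` -/

section Degree

open Fermat.Agent.Val Fermat.Agent.Hecke IsLocalRing

variable {N N' : ℕ} [NeZero N] [NeZero N'] (h : N ∣ N') {p : ℕ} [hp : Fact p.Prime]
  (A : ValuationSubring (AlgebraicClosure ℚ)) (hA : A.LiesOverPrime p)

include hA in
/-- `ψ(N) · [F̃_{N'} : F̃_N] = ψ(N')` over the residue field of `A ∣ p`, `p ∤ N'`. -/
theorem dedekindPsi_mul_finrankAlong_inclC (hpN' : ¬ p ∣ N') :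
    dedekindPsi N * finrankAlong (ResidueField A) (inclC (ResidueField A) h) = dedekindPsi N' := by
  have hpN : ¬ p ∣ N := fun h' => hpN' (h'.trans h)
  have h1 := Deg.finrank_mul_finrankAlong (inclC (ResidueField A) h) (jFullC (ResidueField A) N)
  rw [inclC_jFullC, finrank_jFullC_residueField N hpN A hA,
    finrank_jFullC_residueField N' hpN' A hA] at h1
  exact h1

include hA in
/-- `[F̃_{N r} : F̃_N] = r + 1` for a prime `r ∤ N`, over the residue field of `A ∣ p`, `p ∤ N r`. -/
theorem finrankAlong_inclC_mul_prime {r : ℕ} [NeZero r] (hr : r.Prime) (hrN : ¬ r ∣ N)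
    (hpNr : ¬ p ∣ N * r) :
    finrankAlong (ResidueField A) (inclC (ResidueField A) (dvd_mul_right N r)) = r + 1 := by
  have h1 := dedekindPsi_mul_finrankAlong_inclC (dvd_mul_right N r) A hA hpNr
  rw [Deg.dedekindPsi_mul_prime N hr hrN] at h1
  exact Nat.eq_of_mul_eq_mul_left (Deg.dedekindPsi_pos N) h1

end Degree

/-! ### Leaf (3) -/

section Leaf3

open Fermat.Agent.Val Fermat.Agent.Hecke IsLocalRing

variable {N r : ℕ} [NeZero N] [NeZero r] {p : ℕ} [hp : Fact p.Prime]
  (A : ValuationSubring (AlgebraicClosure ℚ)) (hA : A.LiesOverPrime p)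

local notation "kA" => ResidueField A

include hA in
/-- **(3)** Descent of `p ∣ ord` from `F̃_{N r}` to `F̃_N` (`r ∤ N` prime, `p ∤ N r`, `p ∤ r + 1`). -/
theorem dvd_ord_of_dvd_ord_inclC (hr : r.Prime) (hrN : ¬ r ∣ N) (hpNr : ¬ p ∣ N * r)
    (hpr : ¬ p ∣ r + 1) {f : modularFunctionFieldFullC kA N}
    (hf : ∀ w : Place kA (modularFunctionFieldFullC kA (N * r)),
      (p : ℤ) ∣ w.ord (inclC kA (dvd_mul_right N r) f))
    (v : Place kA (modularFunctionFieldFullC kA N)) : (p : ℤ) ∣ v.ord f := by
  haveI : CharP kA p := charP_residueField_of_liesOverPrime A hA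
  haveI : IsAlgClosed kA := residueField_isAlgClosed A
  have hpN : ¬ p ∣ N := fun h' => hpNr (h'.trans (dvd_mul_right N r))
  haveI := hasPrincipalDivisors_fullC (N' := N * r) kA hp.out hpNr
  refine dvd_ord_of_dvd_ord_along (inclC kA (dvd_mul_right N r))
    (isIntegral_inclC kA _ hp.out hpNr) (fundamentalIdentityAlong_inclC kA _ hp.out hpNr) hp.out
    ?_ hf v ?_
  · rw [finrankAlong_inclC_mul_prime A hA hr hrN hpNr]
    exact hpr
  · rw [(riemannPkg_modL N kA hp.out hpN).deg_one v, Nat.dvd_one]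
    exact hp.out.one_lt.ne'

include hA in
/-- **(3)**, divisor form: if `p • D' = div_{F̃_{N r}} f` with `f ∈ F̃_N` then `D' = α̃_r^* D₀` with
`p • D₀ = div_{F̃_N} f`. -/
theorem exists_divisor_pullbackAlong_inclC (hr : r.Prime) (hrN : ¬ r ∣ N) (hpNr : ¬ p ∣ N * r)
    (hpr : ¬ p ∣ r + 1) {f : modularFunctionFieldFullC kA N} (hf0 : f ≠ 0)
    {D' : Divisor kA (modularFunctionFieldFullC kA (N * r))}
    (hD' : ∀ w : Place kA (modularFunctionFieldFullC kA (N * r)),
      (p : ℤ) * D' w = w.ord (inclC kA (dvd_mul_right N r) f)) :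
    haveI : CharP kA p := charP_residueField_of_liesOverPrime A hA
    haveI : IsAlgClosed kA := residueField_isAlgClosed A
    haveI := hasPrincipalDivisors_fullC (N' := N * r) kA hp.out hpNr
    ∃ D₀ : Divisor kA (modularFunctionFieldFullC kA N),
      (∀ v : Place kA (modularFunctionFieldFullC kA N), (p : ℤ) * D₀ v = v.ord f) ∧
      Divisor.pullbackAlong (inclC kA (dvd_mul_right N r))
        (isIntegral_inclC kA _ hp.out hpNr) D₀ = D' := by
  haveI : CharP kA p := charP_residueField_of_liesOverPrime A hA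
  haveI : IsAlgClosed kA := residueField_isAlgClosed A
  have hpN : ¬ p ∣ N := fun h' => hpNr (h'.trans (dvd_mul_right N r))
  haveI := hasPrincipalDivisors_fullC (N' := N * r) kA hp.out hpNr
  haveI := hasPrincipalDivisors_fullC (N' := N) kA hp.out hpN
  refine exists_divisor_pullbackAlong_eq (inclC kA (dvd_mul_right N r))
    (isIntegral_inclC kA _ hp.out hpNr) (fundamentalIdentityAlong_inclC kA _ hp.out hpNr) hp.out
    ?_ (fun v => ?_) hf0 hD'
  · rw [finrankAlong_inclC_mul_prime A hA hr hrN hpNr]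
    exact hpr
  · rw [(riemannPkg_modL N kA hp.out hpN).deg_one v, Nat.dvd_one]
    exact hp.out.one_lt.ne'

end Leaf3

end Fermat.Agent.FF4.K6
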