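import Mathlib

/-!
# Programme II, block K6: the auxiliary prime (Dirichlet)

`exists_aux_prime` : for a prime `p ≥ 5` and a finite set `T` of integers there is a prime `r ∉ T`,
`r ≠ p`, with `r ≡ 11 (mod 12)` (so that the level `M' r` has no elliptic points,
`K6.nuTwo_nuThree_mul_eq_zero`) and `r ≡ 1 (mod p)`, in particular `p ∤ r + 1` (so that the conorm
`α_r^*` is injective on `p`-torsion and `[F̃_{M' r} : F̃_{M'}] = r + 1` is prime to `p`).

Lead's redesign of K6 (finding #1856): Dirichlet modulo `12 p`; Mathlib only.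
-/

set_option autoImplicit false

namespace Fermat.Agent.FF4.K6

/-- **The auxiliary prime.** -/
theorem exists_aux_prime {p : ℕ} (hp : p.Prime) (hp5 : 5 ≤ p) (T : Finset ℕ) :
    ∃ r : ℕ, r.Prime ∧ r ∉ T ∧ r ≠ p ∧ r % 12 = 11 ∧ r % p = 1 ∧ ¬ p ∣ r + 1 := by
  have hcop : Nat.Coprime 12 p := by
    rw [Nat.coprime_comm, Nat.Prime.coprime_iff_not_dvd hp]
    intro h
    have h1 : p ∣ 2 * 2 * 3 := by simpa using h
    rcases (Nat.Prime.dvd_mul hp).mp h1 with h2 | h2
    · rcases (Nat.Prime.dvd_mul hp).mp h2 with h3 | h3 <;>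
        · have := Nat.le_of_dvd (by norm_num) h3
          omega
    · have := Nat.le_of_dvd (by norm_num) h2
      omega
  -- the residue class `a ≡ 11 (12)`, `a ≡ 1 (p)`
  obtain ⟨a, ha12, hap⟩ := Nat.chineseRemainder hcop 11 1
  have ha12' : a % 12 = 11 := by
    have := ha12
    unfold Nat.ModEq at this
    omega
  have hap' : a % p = 1 := by
    have := hap
    unfold Nat.ModEq at this
    rw [this]
    exact Nat.mod_eq_of_lt (by omega)
  have hacop : a.Coprime (12 * p) := by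
    apply Nat.Coprime.mul_right
    · -- `gcd a 12 = gcd 11 12 = 1`
      have h1 : Nat.gcd a 12 = Nat.gcd 11 12 := by
        rw [Nat.gcd_comm a 12, Nat.gcd_comm 11 12, Nat.gcd_rec 12 a, ha12', Nat.gcd_comm]
      rw [Nat.Coprime, h1]
      norm_num
    · rw [Nat.Coprime, Nat.gcd_comm, Nat.gcd_rec, hap']
      simp
  obtain ⟨r, hrgt, hr, hra⟩ := Nat.forall_exists_prime_gt_and_modEq (T.sup id + p)
    (q := 12 * p) (a := a) (by positivity) hacop
  have hr12 : r % 12 = 11 := by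
    have h1 : r ≡ a [MOD 12] := Nat.ModEq.of_mul_right p hra
    unfold Nat.ModEq at h1
    omega
  have hrp : r % p = 1 := by
    have h1 : r ≡ a [MOD p] := Nat.ModEq.of_mul_left 12 hra
    unfold Nat.ModEq at h1
    omega
  refine ⟨r, hr, fun hrT => ?_, fun h => ?_, hr12, hrp, fun h => ?_⟩
  · have : r ≤ T.sup id := Finset.le_sup (f := id) hrT
    omega
  · omega
  · -- `p ∣ r + 1` and `r ≡ 1 (p)` give `p ∣ 2`
    have h2 : (r + 1) % p = 0 := Nat.mod_eq_zero_of_dvd h
    rw [Nat.add_mod, hrp, Nat.mod_eq_of_lt (show 1 < p by omega)] at h2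
    have h3 : (1 + 1) % p = 2 := Nat.mod_eq_of_lt (by omega)
    omega

/-- The auxiliary prime, avoiding the prime divisors of a nonzero integer `D`. -/
theorem exists_aux_prime_not_dvd {p : ℕ} (hp : p.Prime) (hp5 : 5 ≤ p) {D : ℕ} (hD : D ≠ 0) :
    ∃ r : ℕ, r.Prime ∧ r ≠ p ∧ r % 12 = 11 ∧ r % p = 1 ∧ ¬ p ∣ r + 1 ∧ ¬ r ∣ D := by
  obtain ⟨r, hr, hrT, hrp, h12, h1, hn⟩ := exists_aux_prime hp hp5 D.primeFactors
  exact ⟨r, hr, hrp, h12, h1, hn, fun h => hrT (Nat.mem_primeFactors.mpr ⟨hr, h, hD⟩)⟩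

end Fermat.Agent.FF4.K6
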