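import Mathlib
import Fermat.Agent.FF4.S40Skeleton
import Fermat.Agent.FF4.K6.ConormInj

/-!
# Programme II, block K6, leaf (c): the `r`-old package `P := α_r^* P₀`

Against helper4's `FF4/S40Skeleton.lean` (`VPack W p L`, `VPack.IsNew`, `Good`, `InertiaCyclo`) and the
landed `BR2/LevelPlug.pullN M' p r e : JZero (M' * p) →+ JZero (M' * r * p)` (`= α_r^*` followed by
the level cast).

For a package `P₀ : VPack W p (M' * p)` (`V₀ ⊆ J₀(M' p)[p]`, `G_ℚ`-stable, in the eigenspace of `W`,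
`V₀ ≅ W[p]`) and an auxiliary prime `r ∤ M' p`, `p ∤ r + 1`:

* `VPack.pullEquiv`   : `V₀ ≃+ α_r^* V₀` (injectivity of the conorm on `p`-torsion, `ConormInj`);
* `VPack.mapPullN`    : the package `P := α_r^* P₀ : VPack W p (M' * r * p)`;
* `VPack.mapPullN_V`, `VPack.coe_mapPullN_V`, `VPack.mem_mapPullN_V` : `P.V = α_r^* '' P₀.V`;
* `VPack.mapPullN_iso_pullN` : `P.iso (α_r^* v) = P₀.iso v`;
* `VPack.isNew_mapPullN` : `P₀` `p`-new ⟹ `P` `p`-new (at the level `(M' r) p`);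
* `inertiaCyclo_of_pullN` / `inertiaCyclo_pullN_iff` : inertia at `B` acts on `v ∈ V₀` through the
  cyclotomic character iff it does so on `α_r^* v`.

Lead's redesign of K6 (finding #1856), board #1860.
-/

set_option autoImplicit false
set_option linter.unusedSectionVars false
set_option linter.unusedVariables false

noncomputable section

set_option synthInstance.maxHeartbeats 400000

namespace Fermat.Agent.FF4.K6

open ModularCurve WeierstrassCurve
open Fermat.Agent.X0 Fermat.Agent.BR Fermat.Agent.BR2 Fermat.Agent.Pseudo Fermat.Agent.Jac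
  Fermat.Agent.Hecke Fermat.Agent.BR2.LevelPlug Fermat.Agent.FF4.S40Skeleton

local notation "GQ" => (AlgebraicClosure ℚ ≃ₐ[ℚ] AlgebraicClosure ℚ)

variable {W : WeierstrassCurve ℤ} {p : ℕ} (M' r : ℕ) [NeZero M'] [NeZero p] [NeZero r]
  (e : M' * p * r = M' * r * p)

/-- `Good` at the level `M' r p` implies `Good` at the level `M' p`. -/
theorem good_of_good_mul {l : Nat.Primes} (h : Good W p (M' * r * p) l) : Good W p (M' * p) l :=
  ⟨h.1, fun hd => h.2.1 (hd.trans ⟨r, by ring⟩), h.2.2⟩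

/-- **`V₀ ≃+ α_r^* V₀`** : the conorm is injective on the `p`-torsion (`p ∤ r + 1`). -/
def VPack.pullEquiv (P0 : VPack W p (M' * p)) (hr : r.Prime) (hrM : ¬ r ∣ M' * p)
    (hp : p.Prime) (hpr : ¬ p ∣ r + 1) : P0.V ≃+ (P0.V.map (pullN M' p r e)) :=
  AddEquiv.ofBijective ((pullN M' p r e).addSubgroupMap P0.V)
    ⟨fun v w h => Subtype.ext (pullN_injOn_torsion M' p r e hr hrM hp hpr (P0.tors v v.2)
        (P0.tors w w.2) (congrArg Subtype.val h)),
      fun y => by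
        obtain ⟨y, v, hv, rfl⟩ := y
        exact ⟨⟨v, hv⟩, rfl⟩⟩

@[simp] theorem VPack.coe_pullEquiv (P0 : VPack W p (M' * p)) (hr : r.Prime)
    (hrM : ¬ r ∣ M' * p) (hp : p.Prime) (hpr : ¬ p ∣ r + 1) (v : P0.V) :
    ((VPack.pullEquiv M' r e P0 hr hrM hp hpr v : P0.V.map (pullN M' p r e)) :
      JZero (M' * r * p)) = pullN M' p r e v := rfl

theorem VPack.pullN_pullEquiv_symm (P0 : VPack W p (M' * p)) (hr : r.Prime)
    (hrM : ¬ r ∣ M' * p) (hp : p.Prime) (hpr : ¬ p ∣ r + 1) (y : P0.V.map (pullN M' p r e)) :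
    pullN M' p r e (((VPack.pullEquiv M' r e P0 hr hrM hp hpr).symm y : P0.V) : JZero (M' * p)) =
      (y : JZero (M' * r * p)) := by
  rw [← VPack.coe_pullEquiv M' r e P0 hr hrM hp hpr, AddEquiv.apply_symm_apply]

theorem VPack.pullEquiv_symm_mk (P0 : VPack W p (M' * p)) (hr : r.Prime)
    (hrM : ¬ r ∣ M' * p) (hp : p.Prime) (hpr : ¬ p ∣ r + 1) {v : JZero (M' * p)} (hv : v ∈ P0.V)
    (h : pullN M' p r e v ∈ P0.V.map (pullN M' p r e)) :
    (VPack.pullEquiv M' r e P0 hr hrM hp hpr).symm ⟨pullN M' p r e v, h⟩ = ⟨v, hv⟩ := by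
  rw [AddEquiv.symm_apply_eq]
  exact Subtype.ext rfl

/-- **the `r`-old package `α_r^* P₀`** at the level `M' r p`. -/
def VPack.mapPullN (P0 : VPack W p (M' * p)) (hr : r.Prime) (hrM : ¬ r ∣ M' * p)
    (hp : p.Prime) (hpr : ¬ p ∣ r + 1) : VPack W p (M' * r * p) where
  V := P0.V.map (pullN M' p r e)
  tors := by
    rintro _ ⟨v, hv, rfl⟩
    exact nsmul_pullN_eq_zero M' p r e (P0.tors v hv)
  stable := by
    rintro σ _ ⟨v, hv, rfl⟩
    exact ⟨σ • v, P0.stable σ v hv, pullN_smul M' p r e σ v⟩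
  eigen := by
    rintro l hl _ ⟨v, hv, rfl⟩
    have hl' : ¬ (l : ℕ) ∣ M' * p * r := fun hd => hl.2.1 (e ▸ hd)
    rw [← pullN_heckeBar M' p r e l hl' v, P0.eigen l (good_of_good_mul M' r hl) v hv, map_zsmul]
  iso := (VPack.pullEquiv M' r e P0 hr hrM hp hpr).symm.trans P0.iso
  iso_equivariant := by
    intro σ y h
    obtain ⟨y, v, hv, rfl⟩ := y
    have hσ : σ • v ∈ P0.V := P0.stable σ v hv
    have e1 : (VPack.pullEquiv M' r e P0 hr hrM hp hpr).symm ⟨σ • pullN M' p r e v, h⟩ =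
        ⟨σ • v, hσ⟩ := by
      rw [AddEquiv.symm_apply_eq]
      exact Subtype.ext (pullN_smul M' p r e σ v).symm
    have e2 : (VPack.pullEquiv M' r e P0 hr hrM hp hpr).symm
        ⟨pullN M' p r e v, AddSubgroup.mem_map_of_mem _ hv⟩ = ⟨v, hv⟩ :=
      VPack.pullEquiv_symm_mk M' r e P0 hr hrM hp hpr hv _
    have e3 := P0.iso_equivariant σ ⟨v, hv⟩ hσ
    rw [← e1, ← e2] at e3
    exact e3

section Props

variable (P0 : VPack W p (M' * p)) (hr : r.Prime) (hrM : ¬ r ∣ M' * p) (hp : p.Prime)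
  (hpr : ¬ p ∣ r + 1)

theorem VPack.mapPullN_V :
    (VPack.mapPullN M' r e P0 hr hrM hp hpr).V = P0.V.map (pullN M' p r e) := rfl

theorem VPack.coe_mapPullN_V :
    ((VPack.mapPullN M' r e P0 hr hrM hp hpr).V : Set (JZero (M' * r * p))) =
      pullN M' p r e '' (P0.V : Set (JZero (M' * p))) := rfl

theorem VPack.mem_mapPullN_V {y : JZero (M' * r * p)} :
    y ∈ (VPack.mapPullN M' r e P0 hr hrM hp hpr).V ↔ ∃ v ∈ P0.V, pullN M' p r e v = y :=
  Iff.rfl

theorem VPack.pullN_mem_mapPullN_V {v : JZero (M' * p)} (hv : v ∈ P0.V) :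
    pullN M' p r e v ∈ (VPack.mapPullN M' r e P0 hr hrM hp hpr).V :=
  AddSubgroup.mem_map_of_mem _ hv

/-- `P.iso (α_r^* v) = P₀.iso v`. -/
theorem VPack.mapPullN_iso_pullN {v : JZero (M' * p)} (hv : v ∈ P0.V) :
    (VPack.mapPullN M' r e P0 hr hrM hp hpr).iso
        ⟨pullN M' p r e v, VPack.pullN_mem_mapPullN_V M' r e P0 hr hrM hp hpr hv⟩ =
      P0.iso ⟨v, hv⟩ := by
  exact congrArg P0.iso (VPack.pullEquiv_symm_mk M' r e P0 hr hrM hp hpr hv _)

/-- **`p`-new is preserved**: `P₀ ⊆ ker α_{p*} ∩ ker β_{p*}` at the level `M'` ⟹ the same for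
`α_r^* P₀` at the level `M' r` (`p ∤ M' r`). -/
theorem VPack.isNew_mapPullN (hpM : ¬ p ∣ M' * r) (hnew : P0.IsNew) :
    (VPack.mapPullN M' r e P0 hr hrM hp hpr).IsNew := by
  rintro _ ⟨v, hv, rfl⟩
  exact ⟨alphaDown_pullN_eq_zero M' p r e hp hpM (hnew v hv).1,
    betaDown_pullN_eq_zero M' p r e hp hpM (hnew v hv).2⟩

end Props

section Inertia

variable (P0 : VPack W p (M' * p))

/-- inertia acts on `v ∈ V₀` through the cyclotomic character if it does so on `α_r^* v`. -/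
theorem inertiaCyclo_of_pullN (hr : r.Prime) (hrM : ¬ r ∣ M' * p) (hp : p.Prime)
    (hpr : ¬ p ∣ r + 1) (B : ValuationSubring (AlgebraicClosure ℚ)) {v : JZero (M' * p)}
    (hv : v ∈ P0.V) (h : InertiaCyclo p (M' * r * p) B (pullN M' p r e v)) :
    InertiaCyclo p (M' * p) B v := by
  intro s hs
  have h1 := h s hs
  rw [← pullN_smul M' p r e s v, ← map_zsmul] at h1
  refine pullN_injOn_torsion M' p r e hr hrM hp hpr (P0.tors _ (P0.stable s v hv)) ?_ h1
  rw [smul_comm, P0.tors v hv, smul_zero]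

theorem inertiaCyclo_pullN (B : ValuationSubring (AlgebraicClosure ℚ)) {v : JZero (M' * p)}
    (h : InertiaCyclo p (M' * p) B v) : InertiaCyclo p (M' * r * p) B (pullN M' p r e v) := by
  intro s hs
  rw [← pullN_smul M' p r e s v, h s hs, map_zsmul]

theorem inertiaCyclo_pullN_iff (hr : r.Prime) (hrM : ¬ r ∣ M' * p) (hp : p.Prime)
    (hpr : ¬ p ∣ r + 1) (B : ValuationSubring (AlgebraicClosure ℚ)) {v : JZero (M' * p)}
    (hv : v ∈ P0.V) :
    InertiaCyclo p (M' * r * p) B (pullN M' p r e v) ↔ InertiaCyclo p (M' * p) B v :=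
  ⟨inertiaCyclo_of_pullN M' r e P0 hr hrM hp hpr B hv, inertiaCyclo_pullN M' r e B⟩

end Inertia

end Fermat.Agent.FF4.K6
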