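import Mathlib
import Fermat.Agent.BR.GenusAuxLevel
import Fermat.Agent.FF4.K6.AuxPrime
import Fermat.Agent.FF4.K6.VPackOld

/-!
# Programme II, block K6: the auxiliary prime and the `r`-old package in one statement

`exists_rOld_pack` : for `p ≥ 5`, `p ∤ M'` and a `p`-new package `P₀ : VPack W p (M' * p)` there are a
prime `r ≡ 11 (mod 12)`, `r ≡ 1 (mod p)`, outside a given finite set, prime to `M' p`, such that the
level `M' r` has no elliptic points, and the `p`-new package `P = α_r^* P₀ : VPack W p (M' * r * p)`.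

(`AuxPrime.exists_aux_prime` + `VPackOld.VPack.mapPullN` + `BR/GenusAuxLevel`.)
-/

set_option autoImplicit false
set_option linter.unusedSectionVars false
set_option linter.unusedVariables false

noncomputable section

set_option synthInstance.maxHeartbeats 400000

namespace Fermat.Agent.FF4.K6

open ModularCurve WeierstrassCurve
open Fermat.Agent.X0 Fermat.Agent.BR Fermat.Agent.BR2 Fermat.Agent.Pseudo Fermat.Agent.Jac
  Fermat.Agent.Hecke Fermat.Agent.BR2.LevelPlug Fermat.Agent.FF4.S40Skeleton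

/-- the numerical properties of the auxiliary prime `r` relative to `(M', p)`. -/
structure IsAuxPrime (M' p r : ℕ) : Prop where
  prime : r.Prime
  ne : r ≠ p
  mod12 : r % 12 = 11
  modp : r % p = 1
  not_dvd_succ : ¬ p ∣ r + 1
  not_dvd : ¬ r ∣ M' * p
  not_dvd' : ¬ p ∣ M' * r
  nuTwo : nuTwo (M' * r) = 0
  nuThree : nuThree (M' * r) = 0

/-- the auxiliary prime relative to `(M', p)`, outside a finite set `T`. -/
theorem exists_isAuxPrime {p : ℕ} (hp : p.Prime) (hp5 : 5 ≤ p) {M' : ℕ} (hM' : 0 < M')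
    (hpM' : ¬ p ∣ M') (T : Finset ℕ) : ∃ r : ℕ, r ∉ T ∧ IsAuxPrime M' p r := by
  obtain ⟨r, hr, hrT, hrp, h12, h1, hn⟩ := exists_aux_prime hp hp5 (T ∪ (M' * p).primeFactors)
  have hrT' : r ∉ T := fun h => hrT (Finset.mem_union_left _ h)
  have hrM : ¬ r ∣ M' * p := fun h => hrT (Finset.mem_union_right _
    (Nat.mem_primeFactors.mpr ⟨hr, h, (Nat.mul_pos hM' hp.pos).ne'⟩))
  have hrM' : ¬ r ∣ M' := fun h => hrM (h.mul_right p)
  have hpMr : ¬ p ∣ M' * r := by
    intro h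
    rcases (Nat.Prime.dvd_mul hp).mp h with h | h
    · exact hpM' h
    · exact hrp ((Nat.prime_dvd_prime_iff_eq hp hr).mp h).symm
  exact ⟨r, hrT', hr, hrp, h12, h1, hn, hrM, hpMr,
    Fermat.Agent.BR.GenusCount.nuTwo_mul_prime_eq_zero hr hrM' (by omega),
    Fermat.Agent.BR.GenusCount.nuThree_mul_prime_eq_zero hr hrM' (by omega)⟩

/-- **the auxiliary prime and the `r`-old, `p`-new package.** -/
theorem exists_rOld_pack {W : WeierstrassCurve ℤ} {p : ℕ} [NeZero p] (hp : p.Prime) (hp5 : 5 ≤ p)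
    {M' : ℕ} [NeZero M'] (hpM' : ¬ p ∣ M') (P0 : VPack W p (M' * p)) (hnew : P0.IsNew)
    (T : Finset ℕ) :
    ∃ (r : ℕ) (_ : NeZero r), r ∉ T ∧ IsAuxPrime M' p r ∧
      ∃ P : VPack W p (M' * r * p), P.IsNew ∧
        P.V = P0.V.map (pullN M' p r (Nat.mul_right_comm M' p r)) ∧
        ∀ (v : JZero (M' * p)) (hv : v ∈ P0.V)
          (h : pullN M' p r (Nat.mul_right_comm M' p r) v ∈ P.V),
          P.iso ⟨pullN M' p r (Nat.mul_right_comm M' p r) v, h⟩ = P0.iso ⟨v, hv⟩ := by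
  obtain ⟨r, hrT, hr⟩ := exists_isAuxPrime hp hp5 (Nat.pos_of_ne_zero (NeZero.ne M')) hpM' T
  have : NeZero r := ⟨hr.prime.ne_zero⟩
  refine ⟨r, inferInstance, hrT, hr,
    VPack.mapPullN M' r (Nat.mul_right_comm M' p r) P0 hr.prime hr.not_dvd hp hr.not_dvd_succ,
    VPack.isNew_mapPullN M' r _ P0 hr.prime hr.not_dvd hp hr.not_dvd_succ hr.not_dvd' hnew, rfl,
    fun v hv h => ?_⟩
  exact VPack.mapPullN_iso_pullN M' r _ P0 hr.prime hr.not_dvd hp hr.not_dvd_succ hv

end Fermat.Agent.FF4.K6
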